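import Fermat.Agent.S16.E2b.Defs
import Fermat.Agent.S16.E2b.SlashDvd
import Fermat.Agent.S16.E2b.Decomp
import Fermat.Agent.S16.E2b.SlashS

/-!
# S16 / E2b / Alt / Bdd: all `SL(2, ℤ)`-translates of `estar N` are bounded at `i∞`
(second prover; same FROZEN statement as `E2b/Bdd.lean`; helper lemmas in the sub-namespace
`BddAux`.)  The imported leaves `SlashDvd`, `Decomp`, `SlashS` are cited by statement.

* `estar N` is bounded at `i∞`: directly from `isBoundedAtImInfty_E2`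
  (`im (N z) = N im z ≥ im z`).
* `N ∣ γ 1 0`: `estar_slash_of_dvd`.
* `N ∤ γ 1 0`: `exists_decomp`: `γ = γ₀ S T^j`, so
  `estar N ∣ γ = ((estar N ∣ γ₀) ∣ S) ∣ T^j = (estar N ∣ S) ∣ T^j` (`SlashAction.slash_mul`).
  By `estar_slash_S`, `(estar N ∣ S) z = (N⁻¹ E2 (z / N) - E2 z) / (N - 1)`, bounded at `i∞` because
  `E2` is (`isBoundedAtImInfty_E2`, `UpperHalfPlane.isBoundedAtImInfty_iff`: `‖E2 z‖ ≤ M` for
  `A ≤ z.im`; `im (z / N) = im z / N ≥ A` once `im z ≥ N A`).  Finally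
  `(G ∣[2] T^j) z = G (T^j • z)` (`denom (T^j) z = 1`, same imaginary part), so boundedness is
  preserved.
-/

set_option autoImplicit false

open UpperHalfPlane ModularForm CongruenceSubgroup Complex Function EisensteinSeries
open scoped MatrixGroups ModularForm Real Manifold

namespace Fermat.Agent.S16.E2b.Alt

namespace BddAux

/-- `E₂` is bounded for large imaginary part. -/
theorem E2_bdd : ∃ M A : ℝ, ∀ z : ℍ, A ≤ z.im → ‖E2 z‖ ≤ M :=
  isBoundedAtImInfty_iff.mp isBoundedAtImInfty_E2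

/-- `estar N` is bounded at `i∞`. -/
theorem estar_bdd {N : ℕ} (hN : 0 < N) : IsBoundedAtImInfty (estar N) := by
  obtain ⟨M, A, h⟩ := E2_bdd
  rw [isBoundedAtImInfty_iff]
  refine ⟨((N : ℝ) * M + M) / ‖(N : ℂ) - 1‖, max A 0, fun z hz => ?_⟩
  have hzA : A ≤ z.im := le_trans (le_max_left _ _) hz
  have hN1 : (1 : ℝ) ≤ (N : ℝ) := by exact_mod_cast hN
  have himeq : ((N : ℂ) * (z : ℂ)).im = (N : ℝ) * z.im := by
    rw [Complex.mul_im, Complex.natCast_re, Complex.natCast_im, zero_mul, add_zero, coe_im]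
  have hpos : 0 < ((N : ℂ) * (z : ℂ)).im := by
    rw [himeq]
    exact mul_pos (lt_of_lt_of_le zero_lt_one hN1) z.im_pos
  have hw : EN N z = E2 (⟨(N : ℂ) * (z : ℂ), hpos⟩ : ℍ) := EN_apply z _ rfl
  have hwA : A ≤ UpperHalfPlane.im (⟨(N : ℂ) * (z : ℂ), hpos⟩ : ℍ) := by
    have him : UpperHalfPlane.im (⟨(N : ℂ) * (z : ℂ), hpos⟩ : ℍ) = (N : ℝ) * z.im := himeq
    rw [him]
    calc A ≤ z.im := hzA
      _ = 1 * z.im := (one_mul _).symm
      _ ≤ (N : ℝ) * z.im := mul_le_mul_of_nonneg_right hN1 z.im_pos.le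
  rw [estar_apply, norm_div, hw]
  apply div_le_div_of_nonneg_right _ (norm_nonneg _)
  calc ‖(N : ℂ) * E2 (⟨(N : ℂ) * (z : ℂ), hpos⟩ : ℍ) - E2 z‖
      ≤ ‖(N : ℂ) * E2 (⟨(N : ℂ) * (z : ℂ), hpos⟩ : ℍ)‖ + ‖E2 z‖ := norm_sub_le _ _
    _ ≤ (N : ℝ) * M + M := by
        rw [norm_mul, Complex.norm_natCast]
        exact add_le_add (mul_le_mul_of_nonneg_left (h _ hwA) (Nat.cast_nonneg N)) (h z hzA)

/-- `estar N ∣ S` is bounded at `i∞`. -/
theorem estar_slash_S_bdd {N : ℕ} (hN : 0 < N) :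
    IsBoundedAtImInfty (estar N ∣[(2 : ℤ)] ModularGroup.S) := by
  obtain ⟨M, A, h⟩ := E2_bdd
  rw [isBoundedAtImInfty_iff]
  refine ⟨((N : ℝ)⁻¹ * M + M) / ‖(N : ℂ) - 1‖, max A ((N : ℝ) * A), fun z hz => ?_⟩
  have hzA : A ≤ z.im := le_trans (le_max_left _ _) hz
  have hzNA : (N : ℝ) * A ≤ z.im := le_trans (le_max_right _ _) hz
  have hN0 : (0 : ℝ) < (N : ℝ) := by exact_mod_cast hN
  have himeq : ((z : ℂ) / (N : ℂ)).im = z.im / (N : ℝ) := by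
    rw [Complex.div_natCast_im, coe_im]
  have hpos : 0 < ((z : ℂ) / (N : ℂ)).im := by
    rw [himeq]
    exact div_pos z.im_pos hN0
  have hS := estar_slash_S hN z (⟨(z : ℂ) / (N : ℂ), hpos⟩ : ℍ) rfl
  have hwA : A ≤ UpperHalfPlane.im (⟨(z : ℂ) / (N : ℂ), hpos⟩ : ℍ) := by
    have him : UpperHalfPlane.im (⟨(z : ℂ) / (N : ℂ), hpos⟩ : ℍ) = z.im / (N : ℝ) := himeq
    rw [him, le_div_iff₀ hN0, mul_comm]
    exact hzNA
  rw [hS, norm_div]
  apply div_le_div_of_nonneg_right _ (norm_nonneg _)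
  calc ‖(N : ℂ)⁻¹ * E2 (⟨(z : ℂ) / (N : ℂ), hpos⟩ : ℍ) - E2 z‖
      ≤ ‖(N : ℂ)⁻¹ * E2 (⟨(z : ℂ) / (N : ℂ), hpos⟩ : ℍ)‖ + ‖E2 z‖ := norm_sub_le _ _
    _ ≤ (N : ℝ)⁻¹ * M + M := by
        rw [norm_mul, norm_inv, Complex.norm_natCast]
        exact add_le_add (mul_le_mul_of_nonneg_left (h _ hwA) (inv_nonneg.mpr hN0.le)) (h z hzA)

theorem denom_eq_one (g : SL(2, ℤ)) (h10 : g 1 0 = 0) (h11 : g 1 1 = 1) (z : ℍ) :
    denom g z = 1 := by
  rw [ModularGroup.denom_apply, h10, h11]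
  simp

/-- Translation by `T^j` in weight `2` is just precomposition. -/
theorem slash_T_zpow_apply (G : ℍ → ℂ) (j : ℤ) (z : ℍ) :
    (G ∣[(2 : ℤ)] (ModularGroup.T ^ j)) z = G (ModularGroup.T ^ j • z) := by
  rw [SL_slash_apply]
  have h10 : (ModularGroup.T ^ j) 1 0 = 0 := by
    rw [ModularGroup.coe_T_zpow]
    rfl
  have h11 : (ModularGroup.T ^ j) 1 1 = 1 := by
    rw [ModularGroup.coe_T_zpow]
    rfl
  rw [denom_eq_one _ h10 h11, one_zpow, mul_one]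

/-- Boundedness at `i∞` is preserved by translation by `T^j`. -/
theorem slash_T_zpow_bdd {G : ℍ → ℂ} (hG : IsBoundedAtImInfty G) (j : ℤ) :
    IsBoundedAtImInfty (G ∣[(2 : ℤ)] (ModularGroup.T ^ j)) := by
  rw [isBoundedAtImInfty_iff] at hG ⊢
  obtain ⟨M, A, h⟩ := hG
  refine ⟨M, A, fun z hz => ?_⟩
  rw [slash_T_zpow_apply]
  apply h
  rw [ModularGroup.im_T_zpow_smul]
  exact hz

end BddAux

theorem estar_slash_bdd {N : ℕ} (hN : N.Prime) (γ : SL(2, ℤ)) :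
    IsBoundedAtImInfty (estar N ∣[(2 : ℤ)] γ) := by
  by_cases h : (N : ℤ) ∣ γ 1 0
  · rw [estar_slash_of_dvd hN.pos γ h]
    exact BddAux.estar_bdd hN.pos
  · obtain ⟨γ₀, h0, j, rfl⟩ := exists_decomp hN γ h
    rw [SlashAction.slash_mul, SlashAction.slash_mul, estar_slash_of_dvd hN.pos γ₀ h0]
    exact BddAux.slash_T_zpow_bdd (BddAux.estar_slash_S_bdd hN.pos) j

end Fermat.Agent.S16.E2b.Alt
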