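import Fermat.Agent.S16.E2b.Defs

/-!
# S16 / E2b / Alt / SlashDvd: `estar N` is invariant under `Γ₀(N)`  (second prover)

Same statements as `Fermat/Agent/S16/E2b/SlashDvd.lean` (independent proof; namespace
`Fermat.Agent.S16.E2b.Alt`); helper lemmas in the sub-namespace `SlashDvdAux`.

Let `γ = [a, b; c, d] ∈ SL(2, ℤ)` with `N ∣ c`, `γ' := [a, N b; c / N, d] ∈ SL(2, ℤ)`
(`det = a d - N b (c / N) = 1`).  For `z ∈ ℍ`, `w := N z` (the point of `ℍ` with coercion `N * z`):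
`N * (γ • z) = γ' • w` and `denom γ' w = (c / N) (N z) + d = denom γ z`.  Hence
`(EN N ∣[2] γ) z = (E2 ∣[2] γ') w`.  Mathlib `E2_slash_action γ : E2 ∣[2] γ = E2 - κ • D2 γ`,
`κ = 1 / (2 * riemannZeta 2)`, `D2 γ z = 2 π I (γ 1 0) / denom γ z`, gives
`(EN N ∣[2] γ) z = EN N z - κ * (2 π I (c / N) / denom γ z)` and
`(E2 ∣[2] γ) z = E2 z - κ * (2 π I c / denom γ z)`; so
`N * (EN N ∣[2] γ) z - (E2 ∣[2] γ) z = N * EN N z - E2 z`.
-/

set_option autoImplicit false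

open UpperHalfPlane ModularForm CongruenceSubgroup Complex Function EisensteinSeries
open scoped MatrixGroups ModularForm Real Manifold

namespace Fermat.Agent.S16.E2b.Alt

namespace SlashDvdAux

/-- The conjugated matrix `[a, N b; c', d]` for `γ = [a, b; N c', d]`. -/
def conjMat (N : ℕ) (γ : SL(2, ℤ)) (c' : ℤ) (hc : γ 1 0 = (N : ℤ) * c') : SL(2, ℤ) :=
  ⟨!![γ 0 0, (N : ℤ) * γ 0 1; c', γ 1 1], by
    have hdet := γ.det_coe
    rw [Matrix.det_fin_two] at hdet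
    rw [Matrix.det_fin_two_of]
    rw [hc] at hdet
    linarith⟩

theorem conjMat_00 (N : ℕ) (γ : SL(2, ℤ)) (c' : ℤ) (hc : γ 1 0 = (N : ℤ) * c') :
    (conjMat N γ c' hc) 0 0 = γ 0 0 := rfl

theorem conjMat_01 (N : ℕ) (γ : SL(2, ℤ)) (c' : ℤ) (hc : γ 1 0 = (N : ℤ) * c') :
    (conjMat N γ c' hc) 0 1 = (N : ℤ) * γ 0 1 := rfl

theorem conjMat_10 (N : ℕ) (γ : SL(2, ℤ)) (c' : ℤ) (hc : γ 1 0 = (N : ℤ) * c') :
    (conjMat N γ c' hc) 1 0 = c' := rfl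

theorem conjMat_11 (N : ℕ) (γ : SL(2, ℤ)) (c' : ℤ) (hc : γ 1 0 = (N : ℤ) * c') :
    (conjMat N γ c' hc) 1 1 = γ 1 1 := rfl

/-- The point `N z` of the upper half plane. -/
def scalePt (N : ℕ) (hN : 0 < N) (z : ℍ) : ℍ :=
  ⟨(N : ℂ) * (z : ℂ), by
    rw [Complex.mul_im, Complex.natCast_re, Complex.natCast_im, zero_mul, add_zero]
    exact mul_pos (Nat.cast_pos.mpr hN) z.im_pos⟩

theorem coe_scalePt (N : ℕ) (hN : 0 < N) (z : ℍ) :
    ((scalePt N hN z : ℍ) : ℂ) = (N : ℂ) * (z : ℂ) := rfl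

theorem denom_conj (N : ℕ) (hN : 0 < N) (γ : SL(2, ℤ)) (c' : ℤ) (hc : γ 1 0 = (N : ℤ) * c')
    (z : ℍ) : denom (conjMat N γ c' hc) (scalePt N hN z) = denom γ z := by
  rw [ModularGroup.denom_apply, ModularGroup.denom_apply, conjMat_10, conjMat_11, coe_scalePt, hc]
  push_cast
  ring

theorem smul_conj (N : ℕ) (hN : 0 < N) (γ : SL(2, ℤ)) (c' : ℤ) (hc : γ 1 0 = (N : ℤ) * c')
    (z : ℍ) : ((conjMat N γ c' hc • scalePt N hN z : ℍ) : ℂ) = (N : ℂ) * ((γ • z : ℍ) : ℂ) := by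
  rw [coe_specialLinearGroup_apply, coe_specialLinearGroup_apply, conjMat_00, conjMat_01,
    conjMat_10, conjMat_11, coe_scalePt, hc]
  simp only [algebraMap_int_eq, eq_intCast, Int.cast_mul, Int.cast_natCast, Complex.ofReal_mul,
    Complex.ofReal_intCast, Complex.ofReal_natCast]
  rw [← mul_div_assoc]
  congr 1 <;> ring

/-- The key identity: `(EN N ∣[2] γ) z = (E2 ∣[2] γ') (N z)`. -/
theorem EN_slash_eq (N : ℕ) (hN : 0 < N) (γ : SL(2, ℤ)) (c' : ℤ) (hc : γ 1 0 = (N : ℤ) * c')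
    (z : ℍ) : (EN N ∣[(2 : ℤ)] γ) z = (E2 ∣[(2 : ℤ)] conjMat N γ c' hc) (scalePt N hN z) := by
  rw [SL_slash_apply, SL_slash_apply, denom_conj N hN γ c' hc z,
    EN_apply (γ • z) (conjMat N γ c' hc • scalePt N hN z) (smul_conj N hN γ c' hc z)]

end SlashDvdAux

theorem EN_slash_of_dvd {N : ℕ} (hN : 0 < N) (γ : SL(2, ℤ)) (hγ : (N : ℤ) ∣ γ 1 0) (z : ℍ) :
    (N : ℂ) * (EN N ∣[(2 : ℤ)] γ) z =
      (N : ℂ) * EN N z - (1 / (2 * riemannZeta 2)) * D2 γ z := by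
  obtain ⟨c', hc⟩ := hγ
  rw [SlashDvdAux.EN_slash_eq N hN γ c' hc z, E2_slash_action, Pi.sub_apply, Pi.smul_apply,
    smul_eq_mul, ← EN_apply z (SlashDvdAux.scalePt N hN z) (SlashDvdAux.coe_scalePt N hN z)]
  unfold D2
  rw [SlashDvdAux.denom_conj N hN γ c' hc z, SlashDvdAux.conjMat_10, hc]
  push_cast
  ring

theorem estar_slash_of_dvd {N : ℕ} (hN : 0 < N) (γ : SL(2, ℤ)) (hγ : (N : ℤ) ∣ γ 1 0) :
    estar N ∣[(2 : ℤ)] γ = estar N := by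
  funext z
  have h1 := EN_slash_of_dvd hN γ hγ z
  have h2 : (E2 ∣[(2 : ℤ)] γ) z = E2 z - (1 / (2 * riemannZeta 2)) * D2 γ z := by
    rw [E2_slash_action, Pi.sub_apply, Pi.smul_apply, smul_eq_mul]
  rw [SL_slash_apply] at h1 h2
  rw [SL_slash_apply, estar_apply, estar_apply]
  have h3 : ((N : ℂ) * EN N (γ • z) - E2 (γ • z)) / ((N : ℂ) - 1) * denom γ z ^ (-(2 : ℤ)) =
      ((N : ℂ) * (EN N (γ • z) * denom γ z ^ (-(2 : ℤ))) - E2 (γ • z) * denom γ z ^ (-(2 : ℤ))) /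
        ((N : ℂ) - 1) := by
    ring
  rw [h3, h1, h2]
  congr 1
  ring

end Fermat.Agent.S16.E2b.Alt
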